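import Mathlib

/-!
The cubic field of discriminant `-44`, defined by `u³ - 2u² + 2 = 0`.
-/

set_option autoImplicit false

noncomputable section

open Polynomial NumberField

namespace Fermat.Agent.Mazur.Eleven

/-- `u³ - 2u² + 2`. -/
def cubicPoly : ℚ[X] := X ^ 3 - C 2 * X ^ 2 + C 2

lemma cubicPoly_natDegree : cubicPoly.natDegree = 3 := by
  unfold cubicPoly; compute_degree!

lemma cubicPoly_monic : cubicPoly.Monic := by
  unfold cubicPoly; monicity!

lemma rat_root_free (q : ℚ) : q ^ 3 - 2 * q ^ 2 + 2 ≠ 0 := by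
  intro h
  have hd : (q.den : ℚ) ≠ 0 := by positivity
  have h1 : q.num ^ 3 - 2 * q.num ^ 2 * q.den + 2 * (q.den : ℤ) ^ 3 = 0 := by
    have : (q.num : ℚ) ^ 3 - 2 * (q.num : ℚ) ^ 2 * q.den + 2 * (q.den : ℚ) ^ 3 = 0 := by
      rw [← Rat.num_div_den q] at h
      field_simp at h
      linear_combination h
    exact_mod_cast this
  have hcop : IsCoprime q.num (q.den : ℤ) := Int.isCoprime_iff_nat_coprime.2 (by simpa using q.reduced)
  have hn : (2 : ℤ) ∣ q.num :=
    Int.prime_two.dvd_of_dvd_pow (n := 3) ⟨q.num ^ 2 * q.den - (q.den : ℤ) ^ 3, by linear_combination h1⟩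
  obtain ⟨a, ha⟩ := hn
  have hd2 : (2 : ℤ) ∣ (q.den : ℤ) := by
    apply Int.prime_two.dvd_of_dvd_pow (n := 3)
    exact ⟨-2 * a ^ 3 + 2 * a ^ 2 * q.den, by rw [ha] at h1; linarith [h1]⟩
  have := hcop.isUnit_of_dvd' ⟨a, ha⟩ hd2
  norm_num [Int.isUnit_iff] at this

lemma cubicPoly_irreducible : Irreducible cubicPoly := by
  rw [irreducible_iff_roots_eq_zero_of_degree_le_three (by rw [cubicPoly_natDegree]; norm_num)
    (by rw [cubicPoly_natDegree])]
  rw [Multiset.eq_zero_iff_forall_notMem]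
  intro q hq
  rw [mem_roots cubicPoly_monic.ne_zero, IsRoot.def] at hq
  simp [cubicPoly] at hq
  exact rat_root_free q hq

instance : Fact (Irreducible cubicPoly) := ⟨cubicPoly_irreducible⟩

/-- The cubic field `ℚ(u)`. -/
abbrev K11 : Type := AdjoinRoot cubicPoly

instance : CharZero K11 := charZero_of_injective_algebraMap (algebraMap ℚ K11).injective

instance : NumberField K11 where
  to_finiteDimensional := (AdjoinRoot.powerBasis cubicPoly_monic.ne_zero).finite

/-- The generator `u`. -/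
def uK : K11 := AdjoinRoot.root cubicPoly

lemma uK_eq : uK ^ 3 = 2 * uK ^ 2 - 2 := by
  have h : aeval uK cubicPoly = 0 := by
    have h0 := (AdjoinRoot.aeval_eq (f := cubicPoly) cubicPoly).trans AdjoinRoot.mk_self
    exact h0
  have h' := (congrArg (aeval uK) (show cubicPoly = X ^ 3 - C 2 * X ^ 2 + C 2 from rfl)).symm.trans h
  simp only [map_add, map_sub, map_mul, map_pow, aeval_X, map_ofNat] at h'
  linear_combination h'

/-- `a + b u + c u²`. -/
def el (a b c : ℚ) : K11 := algebraMap ℚ K11 a + algebraMap ℚ K11 b * uK + algebraMap ℚ K11 c * uK ^ 2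

/-- The basis `1, u, u²`. -/
def bK : Module.Basis (Fin 3) ℚ K11 :=
  (AdjoinRoot.powerBasis cubicPoly_monic.ne_zero).basis.reindex
    (finCongr (by rw [AdjoinRoot.powerBasis_dim, cubicPoly_natDegree]))

lemma bK_apply (i : Fin 3) : bK i = uK ^ (i : ℕ) := by
  simp [bK, uK]

lemma el_eq_sum (a b c : ℚ) : el a b c = ∑ i, (![a, b, c] i) • bK i := by
  simp [Fin.sum_univ_three, bK_apply, el, Algebra.smul_def]

lemma el_repr (a b c : ℚ) : ⇑(bK.repr (el a b c)) = ![a, b, c] := by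
  rw [el_eq_sum]
  exact bK.repr_sum_self _

lemma el_inj {a b c a' b' c' : ℚ} (h : el a b c = el a' b' c') : a = a' ∧ b = b' ∧ c = c' := by
  have h' := congrArg (fun z => ⇑(bK.repr z)) h
  simp only [el_repr] at h'
  exact ⟨by simpa using congrFun h' 0, by simpa using congrFun h' 1, by simpa using congrFun h' 2⟩

lemma el_exists (z : K11) : ∃ a b c : ℚ, z = el a b c :=
  ⟨bK.repr z 0, bK.repr z 1, bK.repr z 2, by
    conv_lhs => rw [← bK.sum_repr z]
    simp [Fin.sum_univ_three, bK_apply, el, Algebra.smul_def]⟩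

lemma el_mul (a b c a' b' c' : ℚ) :
    el a b c * el a' b' c' =
      el (a * a' - 2 * (b * c' + c * b') - 4 * (c * c'))
        (a * b' + b * a' - 2 * (c * c'))
        (a * c' + b * b' + c * a' + 2 * (b * c' + c * b') + 4 * (c * c')) := by
  simp only [el, map_add, map_sub, map_mul, map_ofNat]
  set A := algebraMap ℚ K11
  linear_combination (A b * A c' + A c * A b' + A c * A c' * (uK + 2)) * uK_eq

lemma uK_eq_el : uK = el 0 1 0 := by simp [el]

/-- The norm form of `a + b u + c u²`. -/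
def nf {R : Type*} [CommRing R] (a b c : R) : R :=
  Matrix.det !![a, -2 * c, -2 * b - 4 * c; b, a, -2 * c; c, b + 2 * c, a + 2 * b + 4 * c]

lemma nf_eq {R : Type*} [CommRing R] (a b c : R) :
    nf a b c = a * (a * (a + 2 * b + 4 * c) + 2 * c * (b + 2 * c))
      + 2 * c * (b * (a + 2 * b + 4 * c) + 2 * c * c)
      + (-2 * b - 4 * c) * (b * (b + 2 * c) - a * c) := by
  simp [nf, Matrix.det_fin_three]; ring

lemma leftMulMatrix_el (a b c : ℚ) : Algebra.leftMulMatrix bK (el a b c) =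
    !![a, -2 * c, -2 * b - 4 * c; b, a, -2 * c; c, b + 2 * c, a + 2 * b + 4 * c] := by
  have h0 : bK 0 = el 1 0 0 := by simp [bK_apply, el]
  have h1 : bK 1 = el 0 1 0 := by simp [bK_apply, el]
  have h2 : bK 2 = el 0 0 1 := by simp [bK_apply, el]
  ext i j
  rw [Algebra.leftMulMatrix_eq_repr_mul]
  fin_cases j <;> fin_cases i <;>
    simp [h0, h1, h2, el_mul, el_repr]

lemma norm_el (a b c : ℚ) : Algebra.norm ℚ (el a b c) = nf a b c := by
  rw [Algebra.norm_eq_matrix_det bK, leftMulMatrix_el]; rfl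

lemma trace_el (a b c : ℚ) : Algebra.trace ℚ K11 (el a b c) = 3 * a + 2 * b + 4 * c := by
  rw [Algebra.trace_eq_matrix_trace bK, leftMulMatrix_el, Matrix.trace_fin_three]
  simp; ring

lemma isIntegral_uK : IsIntegral ℤ uK :=
  ⟨X ^ 3 - C 2 * X ^ 2 + C 2, by monicity!, by simp [uK_eq]⟩

lemma finrank_K11 : Module.finrank ℚ K11 = 3 := by
  rw [Module.finrank_eq_card_basis bK]; simp

/-! ### Integral elements have integral coordinates -/

lemma exists_int_of_isIntegral {q : ℚ} (h : IsIntegral ℤ q) : ∃ k : ℤ, q = k := by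
  obtain ⟨k, hk⟩ := IsIntegrallyClosed.isIntegral_iff.1 h
  exact ⟨k, by simpa using hk.symm⟩

lemma trace_int {a b c : ℚ} (h : IsIntegral ℤ (el a b c)) :
    ∃ k : ℤ, 3 * a + 2 * b + 4 * c = k :=
  exists_int_of_isIntegral (by rw [← trace_el]; exact Algebra.isIntegral_trace h)

lemma norm_int {a b c : ℚ} (h : IsIntegral ℤ (el a b c)) : ∃ k : ℤ, nf a b c = k :=
  exists_int_of_isIntegral (by rw [← norm_el]; exact Algebra.isIntegral_norm ℚ h)

lemma el_mul_uK (a b c : ℚ) : el a b c * uK = el (-2 * c) a (b + 2 * c) := by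
  rw [uK_eq_el, el_mul]; congr 1 <;> ring

lemma fortyfour_coords {a b c : ℚ} (h : IsIntegral ℤ (el a b c)) :
    ∃ i j k : ℤ, 44 * a = i ∧ 44 * b = j ∧ 44 * c = k := by
  obtain ⟨s, hs⟩ := trace_int h
  have h1 : IsIntegral ℤ (el (-2 * c) a (b + 2 * c)) := el_mul_uK a b c ▸ h.mul isIntegral_uK
  obtain ⟨t, ht⟩ := trace_int h1
  have h2 := h1.mul isIntegral_uK
  rw [el_mul_uK] at h2
  obtain ⟨w, hw⟩ := trace_int h2
  exact ⟨4 * s - 8 * t + 12 * w, -8 * s + 16 * t - 2 * w, 12 * s - 2 * t - 8 * w,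
    by push_cast; linear_combination (4 : ℚ) * hs - 8 * ht + 12 * hw,
    by push_cast; linear_combination (-8 : ℚ) * hs + 16 * ht - 2 * hw,
    by push_cast; linear_combination (12 : ℚ) * hs - 2 * ht - 8 * hw⟩

lemma nf_mod_eight : ∀ a b c : ZMod 8, nf a b c = 0 → 4 * a = 0 ∧ 4 * b = 0 ∧ 4 * c = 0 := by
  simp only [nf_eq]; decide

lemma halve {a b c : ℚ} (h : IsIntegral ℤ (el a b c)) {i j k : ℤ}
    (ha : 2 * a = i) (hb : 2 * b = j) (hc : 2 * c = k) :
    ∃ i' j' k' : ℤ, a = i' ∧ b = j' ∧ c = k' := by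
  obtain ⟨s, hs⟩ := norm_int h
  have hn : nf i j k = 8 * s := by
    have : nf (i : ℚ) j k = 8 * s := by
      rw [← ha, ← hb, ← hc, ← hs]; simp only [nf_eq]; ring
    simp only [nf_eq] at this ⊢; exact_mod_cast this
  have h8 : nf (i : ZMod 8) (j : ZMod 8) (k : ZMod 8) = 0 := by
    have h' := congrArg (fun z : ℤ => (z : ZMod 8)) hn
    simp only [nf_eq] at h' ⊢
    push_cast at h'
    rw [show (8 : ZMod 8) = 0 from rfl, zero_mul] at h'
    exact h'
  obtain ⟨h1, h2, h3⟩ := nf_mod_eight _ _ _ h8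
  have key : ∀ z : ℤ, (4 : ZMod 8) * z = 0 → ∀ x : ℚ, 2 * x = z → ∃ z' : ℤ, x = z' := by
    intro z hz x hx
    have : ((4 * z : ℤ) : ZMod 8) = 0 := by push_cast; exact hz
    obtain ⟨q, hq⟩ := (ZMod.intCast_zmod_eq_zero_iff_dvd _ 8).1 this
    refine ⟨q, ?_⟩
    have hq' : ((4 * z : ℤ) : ℚ) = ((8 : ℕ) : ℤ) * q := by exact_mod_cast hq
    push_cast at hq'; linarith
  obtain ⟨i', hi⟩ := key i h1 a ha
  obtain ⟨j', hj⟩ := key j h2 b hb
  obtain ⟨k', hk⟩ := key k h3 c hc
  exact ⟨i', j', k', hi, hj, hk⟩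

/-- The integers of `K11` are `ℤ[u]`. -/
lemma coords_int {a b c : ℚ} (h : IsIntegral ℤ (el a b c)) :
    ∃ i j k : ℤ, a = i ∧ b = j ∧ c = k := by
  obtain ⟨i, j, k, hi, hj, hk⟩ := fortyfour_coords h
  -- strip the factor `4`
  have h11 : IsIntegral ℤ (el (11 * a) (11 * b) (11 * c)) := by
    have he : el (11 * a) (11 * b) (11 * c) = algebraMap ℤ K11 11 * el a b c := by
      simp [el]; ring
    rw [he]; exact isIntegral_algebraMap.mul h
  have h22 : IsIntegral ℤ (el (22 * a) (22 * b) (22 * c)) := by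
    have he : el (22 * a) (22 * b) (22 * c) = algebraMap ℤ K11 22 * el a b c := by
      simp [el]; ring
    rw [he]; exact isIntegral_algebraMap.mul h
  obtain ⟨i₂, j₂, k₂, hi₂, hj₂, hk₂⟩ :=
    halve h22 (i := i) (j := j) (k := k) (by linarith) (by linarith) (by linarith)
  obtain ⟨A, B, C, hA, hB, hC⟩ :=
    halve h11 (i := i₂) (j := j₂) (k := k₂) (by linarith) (by linarith) (by linarith)
  -- strip the factor `11`
  obtain ⟨s, hs⟩ := trace_int h
  obtain ⟨t, ht⟩ := trace_int (el_mul_uK a b c ▸ h.mul isIntegral_uK)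
  have hsq := h.mul h
  rw [el_mul] at hsq
  obtain ⟨q, hq⟩ := trace_int hsq
  have es : 3 * A + 2 * B + 4 * C = 11 * s := by
    have : ((3 * A + 2 * B + 4 * C : ℤ) : ℚ) = ((11 * s : ℤ) : ℚ) := by
      push_cast; rw [← hA, ← hB, ← hC, ← hs]; ring
    exact_mod_cast this
  have et : 2 * A + 4 * B + 2 * C = 11 * t := by
    have : ((2 * A + 4 * B + 2 * C : ℤ) : ℚ) = ((11 * t : ℤ) : ℚ) := by
      push_cast; rw [← hA, ← hB, ← hC, ← ht]; ring
    exact_mod_cast this
  have eq' : 3 * A * A + 4 * A * B + 8 * A * C + 4 * B * B + 4 * B * C = 121 * q := by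
    have : ((3 * A * A + 4 * A * B + 8 * A * C + 4 * B * B + 4 * B * C : ℤ) : ℚ)
        = ((121 * q : ℤ) : ℚ) := by
      push_cast; rw [← hA, ← hB, ← hC, ← hq]; ring
    exact_mod_cast this
  obtain ⟨α, hα⟩ : (11 : ℤ) ∣ A + 6 * B := by omega
  obtain ⟨γ, hγ⟩ : (11 : ℤ) ∣ C - 4 * B := by omega
  have hB11 : (11 : ℤ) ∣ B := by
    have hA' : A = -6 * B + 11 * α := by linarith
    have hC' : C = 4 * B + 11 * γ := by linarith
    have hp : Prime (11 : ℤ) := by norm_num
    have : (11 : ℤ) ∣ 8 * B ^ 2 := by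
      rw [hA', hC'] at eq'
      exact ⟨-q + 3 * α * α + 8 * α * γ - 4 * B * γ, by ring_nf at eq' ⊢; omega⟩
    exact hp.dvd_of_dvd_pow ((hp.dvd_or_dvd this).resolve_left (by norm_num))
  obtain ⟨B', hB'⟩ := hB11
  refine ⟨α - 6 * B', B', γ + 4 * B', ?_, ?_, ?_⟩
  · have : ((A + 6 * B : ℤ) : ℚ) = ((11 * α : ℤ) : ℚ) := by exact_mod_cast hα
    push_cast at this ⊢
    have : (B : ℚ) = 11 * B' := by exact_mod_cast hB'
    linarith
  · have : (B : ℚ) = 11 * B' := by exact_mod_cast hB'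
    linarith
  · have : ((C - 4 * B : ℤ) : ℚ) = ((11 * γ : ℤ) : ℚ) := by exact_mod_cast hγ
    push_cast at this ⊢
    have : (B : ℚ) = 11 * B' := by exact_mod_cast hB'
    linarith

end Fermat.Agent.Mazur.Eleven
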