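import Fermat.Agent.Mazur.Eleven.TateEleven
import Fermat.Agent.Mazur.Eleven.Exceptional
import Fermat.Agent.Mazur.Eleven.Isogeny
import Fermat.Agent.Mazur.Small.Frey

/-!
An elliptic curve over `ℚ` with `Δ > 0` and `c₄ > 0` has no Galois-stable line in its 11-torsion;
in particular the Frey curve has none.
-/

set_option autoImplicit false

open WeierstrassCurve WeierstrassCurve.Affine WeierstrassCurve.Affine.Point
open Fermat.Agent.Mazur.Small

namespace Fermat.Agent.Mazur.Eleven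

variable {W : WeierstrassCurve.Affine ℚ}

lemma point_smul (σ : AlgebraicClosure ℚ ≃ₐ[ℚ] AlgebraicClosure ℚ)
    (P : (W⁄(AlgebraicClosure ℚ)).Point) :
    pointX (σ • P) = σ (pointX P) ∧ pointW (σ • P) = σ (pointW P) := by
  rcases P with _ | ⟨x, y, h⟩
  · exact ⟨(_root_.map_zero σ).symm, (_root_.map_zero σ).symm⟩
  · rw [algEquiv_smul_def, Point.map_some, pointX_some, pointX_some, pointW_some, pointW_some]
    obtain ⟨hb, hc⟩ := tate_algEquiv (V := W) σ x y
    have h1 := map_zeroX (σ.toAlgHom : AlgebraicClosure ℚ →+* AlgebraicClosure ℚ)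
      (tateB (W⁄(AlgebraicClosure ℚ)) x y) (tateC (W⁄(AlgebraicClosure ℚ)) x y)
    have h2 := map_zeroW (σ.toAlgHom : AlgebraicClosure ℚ →+* AlgebraicClosure ℚ)
      (tateB (W⁄(AlgebraicClosure ℚ)) x y) (tateC (W⁄(AlgebraicClosure ℚ)) x y)
    rw [show (σ.toAlgHom : AlgebraicClosure ℚ →+* AlgebraicClosure ℚ) _ = _ from hb.symm,
      show (σ.toAlgHom : AlgebraicClosure ℚ →+* AlgebraicClosure ℚ) _ = _ from hc.symm] at h1 h2
    exact ⟨h1.symm, h2.symm⟩

/-- A cyclic subgroup of order 11 with Galois action forces `c₄³ = j Δ` for one of three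
negative values of `j`, or `Δ = 0`. -/
theorem exists_negative_j {P : (W⁄(AlgebraicClosure ℚ)).Point} (hP : P ≠ 0)
    (h11 : (11 : ℕ) • P = 0)
    (hgal : ∀ σ : AlgebraicClosure ℚ ≃ₐ[ℚ] AlgebraicClosure ℚ, ∃ k : ℕ, σ • P = k • P) :
    W.Δ = 0 ∨ ∃ j : ℚ, j < 0 ∧ W.c₄ ^ 3 = j * W.Δ := by
  obtain ⟨X₀, hX₀⟩ := exists_rat_of_invariant pointX (fun σ Q => (point_smul σ Q).1) hP
    (fun _ hk => (point_nsmul hP h11 hk).1) hgal
  obtain ⟨W₀, hW₀⟩ := exists_rat_of_invariant pointW (fun σ Q => (point_smul σ Q).2) hP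
    (fun _ hk => (point_nsmul hP h11 hk).2) hgal
  rcases P with _ | ⟨x₀, y₀, h⟩
  · exact absurd rfl hP
  obtain ⟨u, x, y, hu, hx, hx1, hy, -, hC, h3, hX, hW, e1, e2, e3⟩ := eleven_xy h h11
  set b := (1 - y) * (1 - y / x) * -y with hb
  set c := (1 - y / x) * -y with hc
  have hc4 : (W⁄(AlgebraicClosure ℚ)).c₄ = u ^ 4 * tateC4 b c := by
    rw [c4_eq _ x₀ y₀ h3, e1, e2, e3, tateC4]; ring
  have hΔ : (W⁄(AlgebraicClosure ℚ)).Δ = u ^ 12 * tateDisc b c := by
    rw [delta_eq _ x₀ y₀ h3 h.1, e1, e2, e3, tateDisc]; ring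
  have hc4' : (W⁄(AlgebraicClosure ℚ)).c₄ = algebraMap ℚ (AlgebraicClosure ℚ) W.c₄ :=
    WeierstrassCurve.map_c₄ ..
  have hΔ' : (W⁄(AlgebraicClosure ℚ)).Δ = algebraMap ℚ (AlgebraicClosure ℚ) W.Δ :=
    WeierstrassCurve.map_Δ ..
  rw [hc4'] at hc4
  rw [hΔ'] at hΔ
  have hcur := zero_curve hx hx1 hC
  rw [← hX, ← hW, ← hX₀, ← hW₀] at hcur
  have hcurQ : W₀ ^ 2 = 4 * X₀ ^ 3 - 4 * X₀ ^ 2 - 40 * X₀ - 79 :=
    (algebraMap ℚ (AlgebraicClosure ℚ)).injective (by simpa [map_ofNat] using hcur)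
  have finish : ∀ j : ℚ, j < 0 → tateC4 b c ^ 3 = (j : AlgebraicClosure ℚ) * tateDisc b c →
      W.Δ = 0 ∨ ∃ j : ℚ, j < 0 ∧ W.c₄ ^ 3 = j * W.Δ := by
    intro j hj hrel
    refine Or.inr ⟨j, hj, (algebraMap ℚ (AlgebraicClosure ℚ)).injective ?_⟩
    rw [map_pow, map_mul, hc4, hΔ, eq_ratCast]
    linear_combination u ^ 12 * hrel
  rcases x0_eleven_rational hcurQ with h5 | h16
  · subst h5
    have hsq : W₀ = 11 ∨ W₀ = -11 := sq_eq_sq_iff_eq_or_eq_neg.1 (by rw [hcurQ]; norm_num)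
    rw [← hX₀, map_ofNat] at hX
    rcases hsq with rfl | rfl
    · rw [← hW₀, map_ofNat] at hW
      exact finish (-32768) (by norm_num) (by
        push_cast; exact five_pos hx hx1 hX.symm (by rw [← hW]) hc hb)
    · rw [← hW₀, map_neg, map_ofNat] at hW
      exact finish (-121) (by norm_num) (by
        push_cast; exact five_neg hx hx1 hX.symm (by rw [← hW]) hc hb)
  · subst h16
    have hsq : W₀ = 121 ∨ W₀ = -121 := sq_eq_sq_iff_eq_or_eq_neg.1 (by rw [hcurQ]; norm_num)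
    rw [← hX₀, map_ofNat] at hX
    rcases hsq with rfl | rfl
    · rw [← hW₀, map_ofNat] at hW
      exact finish (-24729001) (by norm_num) (by
        push_cast; exact sixteen_pos hx hx1 hX.symm (by rw [← hW]) hc hb)
    · rw [← hW₀, map_neg, map_ofNat] at hW
      refine Or.inl ((algebraMap ℚ (AlgebraicClosure ℚ)).injective ?_)
      rw [hΔ, sixteen_neg hx hx1 hX.symm (by rw [← hW]) hc hb, mul_zero, _root_.map_zero]

/-- An elliptic curve over `ℚ` with positive `Δ` and `c₄` has no stable line in `E[11]`. -/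
theorem no_stable_line_eleven [W.IsElliptic] (hΔ : 0 < W.Δ) (hc4 : 0 < W.c₄)
    {N : Submodule (ZMod 11)
      (Submodule.torsionBy ℤ (W⁄(AlgebraicClosure ℚ)).Point ((11 : ℕ) : ℤ))}
    (hst : IsGaloisStable ℚ N) (hbot : N ≠ ⊥) (htop : N ≠ ⊤) : False := by
  obtain ⟨P, hP, h11, hgal⟩ := exists_point_of_stable_line W (by norm_num)
    (EC.Torsion.natCard_torsionBy_algebraicClosureRat W (by norm_num)) hst hbot htop
  rcases exists_negative_j hP h11 hgal with h | ⟨j, hj, h⟩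
  · exact hΔ.ne' h
  · have := pow_pos hc4 3
    nlinarith [mul_neg_of_neg_of_pos hj hΔ]

lemma frey_no_stable_line_eleven (P : FreyPackage) {p : ℕ} (hp : p = 11)
    {N : Submodule (ZMod p) (Submodule.torsionBy ℤ (P.freyCurve⁄(AlgebraicClosure ℚ)).Point p)}
    (hst : IsGaloisStable ℚ N) (hbot : N ≠ ⊥) (htop : N ≠ ⊤) : False := by
  subst hp
  have := frey_isElliptic P
  refine no_stable_line_eleven ?_ (frey_c4_pos P) hst hbot htop
  exact lt_of_le_of_ne (by rw [frey_delta_square]; exact sq_nonneg _) (frey_delta_ne_zero P).symm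

/-- The Frey curve for `p = 11` has no Galois-stable cofixed line. -/
theorem not_hasGaloisStableCofixedLine_eleven (P : FreyPackage) (hp : P.p = 11) :
    ¬ HasGaloisStableCofixedLine (K := AlgebraicClosure ℚ) ℚ P.freyCurve P.p := by
  rintro ⟨N, hst, hbot, htop, -⟩
  exact frey_no_stable_line_eleven P hp hst hbot htop

end Fermat.Agent.Mazur.Eleven
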